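/-
MAZUR (Track M), Cusp/Defs (helper7): **the two cusps of `X₀(p)` over `ℚ̄` and the cuspidal class**.

* `mzcInf p`  : the cusp `∞` (the place of the `q`-order; ALPHA's `alpiInf`);
* `mzcW p`    : the Atkin–Lehner (Fricke) involution `w_p` of `modularFunctionFieldBar p`
                (T2-W's `t2w` at level `1 * p`, transported along `1 * p = p`);
* `mzcZero p` : the cusp `0 := w_p • ∞`;
* `mzcCusp p` : the class `c = [(0) - (∞)]` in `J₀(p)`.
-/
import Fermat.Agent.Lib.Alpha.Inv.Inf
import Fermat.Agent.Lib.T2.AL.Main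
import Fermat.Agent.Lib.T2.Inst.Cusp

set_option autoImplicit false
set_option linter.style.haveILetI false
set_option linter.unusedSectionVars false

open HahnSeries ModularCurve AlgebraicCurve Fermat.Agent.T1 Fermat.Agent.T2 Fermat.Agent.Curve
  Fermat.Agent.T1.KMod Fermat.Agent.S24Lib

noncomputable section

namespace Fermat.Agent.Mazur

local notation "Qb" => AlgebraicClosure ℚ
local notation "GQ" => (AlgebraicClosure ℚ ≃ₐ[ℚ] AlgebraicClosure ℚ)

variable (p : ℕ) [hp : Fact p.Prime]

instance mzc_neZero : NeZero p := ⟨hp.out.ne_zero⟩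

instance mzc_neZero_one_mul : NeZero (1 * p) := ⟨by rw [one_mul]; exact hp.out.ne_zero⟩

theorem mzc_not_dvd_one : ¬ p ∣ 1 := fun h => hp.out.one_lt.ne' (Nat.dvd_one.mp h)

/-- the cusp `∞` of `X₀(p)` -/
def mzcInf : Place Qb ↥(modularFunctionFieldBar p) := Fermat.Agent.Alpha.alpiInf p

theorem mzcInf_ord (f : ↥(modularFunctionFieldBar p)) :
    (mzcInf p).ord f = (f : LaurentSeries Qb).order := Fermat.Agent.Alpha.alpiInf_ord p f

theorem mzcInf_fixed (σ : GQ) :
    arithmeticGalois (modularFunctionFieldFull p) σ • mzcInf p = mzcInf p :=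
  Fermat.Agent.Alpha.alpi_inf_fixed p σ

theorem mzc_bar_one_mul : modularFunctionFieldBar (1 * p) = modularFunctionFieldBar p := by
  rw [one_mul]

/-- the level identification `F_{1 * p} ≃ F_p` -/
def mzcLev : ↥(modularFunctionFieldBar (1 * p)) ≃ₐ[Qb] ↥(modularFunctionFieldBar p) :=
  IntermediateField.equivOfEq (mzc_bar_one_mul p)

theorem coe_mzcLev (x : ↥(modularFunctionFieldBar (1 * p))) :
    ((mzcLev p x : ↥(modularFunctionFieldBar p)) : LaurentSeries Qb) = (x : LaurentSeries Qb) := by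
  rw [mzcLev, IntermediateField.equivOfEq_apply]

theorem coe_mzcLev_symm (x : ↥(modularFunctionFieldBar p)) :
    (((mzcLev p).symm x : ↥(modularFunctionFieldBar (1 * p))) : LaurentSeries Qb)
      = (x : LaurentSeries Qb) := by
  rw [mzcLev, IntermediateField.equivOfEq_symm, IntermediateField.equivOfEq_apply]

/-- **the Atkin–Lehner involution `w_p`** of the function field of `X₀(p)` over `ℚ̄` -/
def mzcW : ↥(modularFunctionFieldBar p) ≃ₐ[Qb] ↥(modularFunctionFieldBar p) :=
  ((mzcLev p).symm.trans (t2w Qb 1 p (mzc_not_dvd_one p))).trans (mzcLev p)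

theorem mzcW_apply (x : ↥(modularFunctionFieldBar p)) :
    mzcW p x = mzcLev p (t2w Qb 1 p (mzc_not_dvd_one p) ((mzcLev p).symm x)) := rfl

theorem mzcW_mzcW (x : ↥(modularFunctionFieldBar p)) : mzcW p (mzcW p x) = x := by
  rw [mzcW_apply, mzcW_apply, AlgEquiv.symm_apply_apply, t2w_t2w, AlgEquiv.apply_symm_apply]

theorem mzcW_symm : (mzcW p).symm = mzcW p := by
  apply AlgEquiv.ext
  intro x
  rw [AlgEquiv.symm_apply_eq, mzcW_mzcW]

/-- `j_p = j(pτ)` -/
def mzcJp : ↥(modularFunctionFieldBar p) := t2cpYq p p (dvd_refl p)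

theorem coe_mzcJp : ((mzcJp p : ↥(modularFunctionFieldBar p)) : LaurentSeries Qb)
    = qExpand Qb p (jqModC Qb) := rfl

theorem mzc_qExpand_congr {R : Type*} [CommRing R] {d d' : ℕ} [NeZero d] [NeZero d'] (h : d = d')
    (f : LaurentSeries R) : qExpand R d f = qExpand R d' f := by
  subst h
  rfl

/-- `w_p j = j_p` -/
theorem mzcW_tbJ : mzcW p (tbJ p) = mzcJp p := by
  have h1 : (mzcLev p).symm (tbJ p) = t2wJd Qb (1 * p) 1 (t2w_dvd₁ 1 p (dvd_refl 1)) := by
    apply Subtype.ext
    rw [coe_mzcLev_symm, coe_tbJ, coe_t2wJd Qb (1 * p) 1]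
    exact (qExpand_one_apply _).symm
  rw [mzcW_apply, h1, t2w_jd₁ Qb 1 p (mzc_not_dvd_one p) (dvd_refl 1)]
  apply Subtype.ext
  haveI : NeZero (p * 1) := ⟨by rw [mul_one]; exact hp.out.ne_zero⟩
  rw [coe_mzcLev, coe_t2wJd Qb (1 * p) (p * 1), coe_mzcJp]
  exact mzc_qExpand_congr (mul_one p) _

/-- `w_p j_p = j` -/
theorem mzcW_mzcJp : mzcW p (mzcJp p) = tbJ p := by
  rw [← mzcW_tbJ, mzcW_mzcW]

/-- **the cusp `0`** of `X₀(p)`: the image of `∞` under `w_p` -/
def mzcZero : Place Qb ↥(modularFunctionFieldBar p) := mzcW p • mzcInf p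

/-- the order at the cusp `0` is the `q`-order after `w_p` -/
theorem mzcZero_ord (f : ↥(modularFunctionFieldBar p)) :
    (mzcZero p).ord f = ((mzcW p f : ↥(modularFunctionFieldBar p)) : LaurentSeries Qb).order := by
  rw [← mzcInf_ord]
  have h := Place.ord_smul (mzcW p) (mzcInf p) (mzcW p f)
  rw [mzcW_mzcW] at h
  exact h

theorem mzcInf_ord_tbJ : (mzcInf p).ord (tbJ p) = -1 := Fermat.Agent.Alpha.alpiInf_ord_tbJ p

/-! ### `w_p` is defined over `ℚ` -/

theorem mzc_t2wJd_one : t2wJd Qb p 1 (one_dvd p) = tbJ p := by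
  apply Subtype.ext
  rw [coe_t2wJd Qb p 1, coe_tbJ]
  exact qExpand_one_apply _

theorem mzc_t2wJd_self : t2wJd Qb p p (dvd_refl p) = mzcJp p := by
  apply Subtype.ext
  rw [coe_t2wJd Qb p p, coe_mzcJp]

theorem mzc_arith_tbJ (σ : GQ) :
    arithmeticGalois (modularFunctionFieldFull p) σ • tbJ p = tbJ p := by
  apply Subtype.ext
  rw [coe_arithmeticGalois_smul, coe_tbJ, coeffMap_jqModC]

theorem mzc_arith_mzcJp (σ : GQ) :
    arithmeticGalois (modularFunctionFieldFull p) σ • mzcJp p = mzcJp p := by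
  apply Subtype.ext
  rw [coe_arithmeticGalois_smul, coe_mzcJp, coeffMap_qExpand, coeffMap_jqModC]

theorem mzc_arith_algebraMap (σ : GQ) (c : Qb) :
    arithmeticGalois (modularFunctionFieldFull p) σ • algebraMap Qb ↥(modularFunctionFieldBar p) c
      = algebraMap Qb ↥(modularFunctionFieldBar p) (σ c) := by
  apply Subtype.ext
  rw [coe_arithmeticGalois_smul]
  exact coeffMap_algebraMap _ c

/-- **`w_p` commutes with the arithmetic Galois action** -/
theorem mzcW_arith (σ : GQ) (f : ↥(modularFunctionFieldBar p)) :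
    mzcW p (arithmeticGalois (modularFunctionFieldFull p) σ • f)
      = arithmeticGalois (modularFunctionFieldFull p) σ • mzcW p f := by
  set g := arithmeticGalois (modularFunctionFieldFull p) σ with hg
  have key : ((mzcW p : ↥(modularFunctionFieldBar p) ≃ₐ[Qb] ↥(modularFunctionFieldBar p)) :
        ↥(modularFunctionFieldBar p) →+* ↥(modularFunctionFieldBar p)).comp
        ((SemilinearAut.toRingAut g : ↥(modularFunctionFieldBar p) ≃+* ↥(modularFunctionFieldBar p)) :
          ↥(modularFunctionFieldBar p) →+* ↥(modularFunctionFieldBar p))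
      = ((SemilinearAut.toRingAut g : ↥(modularFunctionFieldBar p) ≃+* ↥(modularFunctionFieldBar p)) :
          ↥(modularFunctionFieldBar p) →+* ↥(modularFunctionFieldBar p)).comp
        ((mzcW p : ↥(modularFunctionFieldBar p) ≃ₐ[Qb] ↥(modularFunctionFieldBar p)) :
          ↥(modularFunctionFieldBar p) →+* ↥(modularFunctionFieldBar p)) := by
    apply t2w_ringHom_ext
    · intro c
      show mzcW p (g • algebraMap Qb ↥(modularFunctionFieldBar p) c)
        = g • mzcW p (algebraMap Qb ↥(modularFunctionFieldBar p) c)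
      rw [hg, mzc_arith_algebraMap, AlgEquiv.commutes, AlgEquiv.commutes, mzc_arith_algebraMap]
    · intro d hd
      show mzcW p (g • t2wJd Qb p d hd) = g • mzcW p (t2wJd Qb p d hd)
      rcases (Nat.dvd_prime hp.out).mp hd with rfl | rfl
      · rw [mzc_t2wJd_one, hg, mzc_arith_tbJ, mzcW_tbJ, mzc_arith_mzcJp]
      · rw [mzc_t2wJd_self, hg, mzc_arith_mzcJp, mzcW_mzcJp, mzc_arith_tbJ]
  exact RingHom.congr_fun key f

/-- **the cusp `0` is fixed by the arithmetic action of `G_ℚ`** -/
theorem mzcZero_fixed (σ : GQ) :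
    arithmeticGalois (modularFunctionFieldFull p) σ • mzcZero p = mzcZero p := by
  apply Place.ext
  rw [SemilinearAut.smul_toValuationSubring]
  ext f
  rw [ValuationSubring.mem_pointwise_smul_iff_inv_smul_mem, PlaceAux.mem_iff, PlaceAux.mem_iff,
    mzcZero_ord, mzcZero_ord, ← map_inv, mzcW_arith, Fermat.Agent.Alpha.alpi_order_smul,
    smul_eq_zero_iff_eq]

/-! ### The cuspidal class -/

theorem mzc_isFunctionFieldGen : IsFunctionFieldGen Qb ↥(modularFunctionFieldBar p) (tbJ p) :=
  t2cp_isFunctionFieldGen_tbJ p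

theorem mzc_sub_mem_degZero (x y : Place Qb ↥(modularFunctionFieldBar p)) :
    (Finsupp.single x 1 - Finsupp.single y 1 : Divisor Qb ↥(modularFunctionFieldBar p))
      ∈ Divisor.degZero (K := Qb) (F := ↥(modularFunctionFieldBar p)) := by
  rw [Divisor.mem_degZero, map_sub, Divisor.degree_single, Divisor.degree_single,
    PlaceAux.deg_eq_one (mzc_isFunctionFieldGen p) x, PlaceAux.deg_eq_one (mzc_isFunctionFieldGen p) y]
  simp

/-- the class `[(x) - (y)]` in `J₀(p)` -/
def mzcCls (x y : Place Qb ↥(modularFunctionFieldBar p)) : JZero p :=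
  Pic0.mk ⟨Finsupp.single x 1 - Finsupp.single y 1, mzc_sub_mem_degZero p x y⟩

/-- the class of two `G_ℚ`-fixed places is `G_ℚ`-fixed -/
theorem mzcCls_fixed {x y : Place Qb ↥(modularFunctionFieldBar p)}
    (hx : ∀ σ : GQ, arithmeticGalois (modularFunctionFieldFull p) σ • x = x)
    (hy : ∀ σ : GQ, arithmeticGalois (modularFunctionFieldFull p) σ • y = y) (σ : GQ) :
    σ • mzcCls p x y = mzcCls p x y := by
  rw [galois_smul_pic0_def, mzcCls, SemilinearAut.pic0_smul_mk]
  congr 1
  apply Subtype.ext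
  rw [SemilinearAut.coe_degZeroSMulHom]
  show arithmeticGalois (modularFunctionFieldFull p) σ •
      (Finsupp.single x 1 - Finsupp.single y 1 : Divisor Qb ↥(modularFunctionFieldBar p)) = _
  rw [smul_sub, SemilinearAut.smul_single, SemilinearAut.smul_single, hx σ, hy σ]

theorem mzcCls_self (x : Place Qb ↥(modularFunctionFieldBar p)) : mzcCls p x x = 0 := by
  have h : (⟨Finsupp.single x 1 - Finsupp.single x 1, mzc_sub_mem_degZero p x x⟩ :
      Divisor.degZero (K := Qb) (F := ↥(modularFunctionFieldBar p))) = 0 :=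
    Subtype.ext (sub_self _)
  rw [mzcCls, h, Pic0.mk_zero]

theorem mzcCls_add (x y z : Place Qb ↥(modularFunctionFieldBar p)) :
    mzcCls p x y + mzcCls p y z = mzcCls p x z := by
  rw [mzcCls, mzcCls, mzcCls, ← Pic0.mk_add]
  congr 1
  apply Subtype.ext
  show (Finsupp.single x 1 - Finsupp.single y 1 : Divisor Qb ↥(modularFunctionFieldBar p))
    + (Finsupp.single y 1 - Finsupp.single z 1) = Finsupp.single x 1 - Finsupp.single z 1
  abel

theorem mzcCls_neg (x y : Place Qb ↥(modularFunctionFieldBar p)) :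
    -mzcCls p x y = mzcCls p y x := by
  rw [neg_eq_iff_add_eq_zero, mzcCls_add, mzcCls_self]

/-- **the cuspidal class** `c = [(0) - (∞)]` -/
def mzcCusp : JZero p := mzcCls p (mzcZero p) (mzcInf p)

theorem mzcCusp_fixed (σ : GQ) : σ • mzcCusp p = mzcCusp p :=
  mzcCls_fixed p (mzcZero_fixed p) (mzcInf_fixed p) σ

end Fermat.Agent.Mazur
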